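import Mathlib.NumberTheory.NumberField.Ideal.Asymptotics
import Mathlib.NumberTheory.NumberField.Units.Regulator
import Mathlib.Analysis.SpecificLimits.Basic

/-!
# Squarefree ideals are a positive proportion

Every ideal is a squarefree one times a square; the ideals with a large square factor are few, and
the small square factors are finitely many.
-/

set_option autoImplicit false
set_option linter.style.haveILetI false

noncomputable section

open NumberField Module Finset Filter Topology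
open scoped Classical Real

namespace FA.QuarticLower

variable (K : Type) [Field K] [NumberField K]

/-- The nonzero ideals of norm at most `X`. -/
def idealsUpTo (X : ℝ) : Finset (Ideal (𝓞 K)) :=
  ((Ideal.finite_setOfPred_absNorm_le (S := 𝓞 K) ⌊X⌋₊).toFinset).filter (fun I => I ≠ ⊥)

variable {K}

theorem mem_idealsUpTo {X : ℝ} (hX : 0 ≤ X) {I : Ideal (𝓞 K)} :
    I ∈ idealsUpTo K X ↔ I ≠ ⊥ ∧ (Ideal.absNorm I : ℝ) ≤ X := by
  simp only [idealsUpTo, mem_filter, Set.Finite.mem_toFinset, Set.mem_ofPred_eq,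
    Nat.le_floor_iff hX, and_comm]

theorem absNorm_pos {I : Ideal (𝓞 K)} (hI : I ≠ ⊥) : 0 < Ideal.absNorm I :=
  Nat.pos_of_ne_zero (by rwa [Ne, Ideal.absNorm_eq_zero_iff])

/-- **A squarefree part.** -/
theorem exists_squarefree_mul_sq (I : Ideal (𝓞 K)) (hI : I ≠ ⊥) :
    ∃ J G : Ideal (𝓞 K), J ≠ ⊥ ∧ G ≠ ⊥ ∧ Squarefree J ∧ I = J * G ^ 2 := by
  obtain ⟨n, hn⟩ : ∃ n, Ideal.absNorm I = n := ⟨_, rfl⟩
  induction n using Nat.strong_induction_on generalizing I with
  | _ n ih =>
    by_cases hsf : Squarefree I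
    · exact ⟨I, ⊤, hI, top_ne_bot, hsf, by rw [← Ideal.one_eq_top, one_pow, mul_one]⟩
    · simp only [Squarefree, not_forall] at hsf
      obtain ⟨P, ⟨I', rfl⟩, hP⟩ := hsf
      have hP0 : P ≠ ⊥ := fun h => hI (by rw [h]; simp)
      have hI0 : I' ≠ ⊥ := fun h => hI (by rw [h]; simp)
      have hP1 : 1 < Ideal.absNorm P :=
        lt_of_le_of_ne (absNorm_pos hP0) fun h => hP (Ideal.isUnit_iff.2
          (Ideal.absNorm_eq_one_iff.1 h.symm))
      have hlt : Ideal.absNorm I' < n := by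
        rw [← hn, map_mul, map_mul]
        exact lt_mul_of_one_lt_left (absNorm_pos hI0) (Nat.one_lt_mul_iff.2
          ⟨absNorm_pos hP0, absNorm_pos hP0, Or.inl hP1⟩)
      obtain ⟨J, G, hJ, hG, hsq, rfl⟩ := ih _ hlt I' hI0 rfl
      exact ⟨J, P * G, hJ, mul_ne_zero hP0 hG, hsq, by ring⟩

/-- The ideals are at most linearly many and at least linearly many. -/
theorem ideal_count : ∃ C κ X₁ : ℝ, 0 ≤ C ∧ 0 < κ ∧ (∀ X : ℝ, 0 ≤ X →
    ((idealsUpTo K X).card : ℝ) ≤ C * X) ∧
      ∀ X : ℝ, X₁ ≤ X → κ * X ≤ (idealsUpTo K X).card := by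
  set a : ℝ := (2 ^ InfinitePlace.nrRealPlaces K * (2 * π) ^ InfinitePlace.nrComplexPlaces K *
    Units.regulator K * classNumber K) / (Units.torsionOrder K * Real.sqrt |(discr K : ℝ)|)
  have ha : 0 < a := by
    have := Units.regulator_pos K
    have : (0 : ℝ) < classNumber K := by exact_mod_cast classNumber_ne_zero K |>.bot_lt
    have : (0 : ℝ) < |(discr K : ℝ)| := abs_pos.2 (Int.cast_ne_zero.2 (discr_ne_zero K))
    have := Real.sqrt_pos.2 this
    have : (0 : ℝ) < Units.torsionOrder K := by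
      exact_mod_cast Nat.pos_of_ne_zero (Units.torsionOrder_ne_zero K)
    simp only [a]; positivity
  have hlim : Tendsto (fun X : ℝ => ((idealsUpTo K X).card : ℝ) / X) atTop (𝓝 a) := by
    have h := (Ideal.tendsto_norm_le_div_atTop K).sub tendsto_inv_atTop_zero
    rw [sub_zero] at h
    refine Filter.Tendsto.congr' ?_ h
    filter_upwards [eventually_ge_atTop 1] with X hX
    have hcard : Nat.card {I : Ideal (𝓞 K) // (Ideal.absNorm I : ℝ) ≤ X} =
        (idealsUpTo K X).card + 1 := by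
      rw [Nat.card_congr (Equiv.subtypeEquivRight (q := fun I =>
          I ∈ insert ⊥ (idealsUpTo K X)) fun I => ?_),
        Nat.card_eq_finsetCard, card_insert_of_notMem (fun h =>
          ((mem_idealsUpTo (by linarith)).1 h).1 rfl)]
      rw [mem_insert, mem_idealsUpTo (by linarith)]
      by_cases hI : I = ⊥
      · simp [hI]; linarith
      · simp [hI]
    rw [hcard]
    push_cast
    ring
  obtain ⟨X₁, hX₁⟩ := eventually_atTop.1 (hlim.eventually
    (Ioo_mem_nhds (half_lt_self ha) (show a < 2 * a by linarith)))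
  set Y := max X₁ 1
  refine ⟨2 * a + (idealsUpTo K Y).card, a / 2, Y, by positivity, by positivity,
    fun X hX => ?_, fun X hX => ?_⟩
  · rcases lt_or_ge X 1 with hX1 | hX1
    · rw [card_eq_zero.2 (eq_empty_of_forall_notMem fun I hI => ?_), Nat.cast_zero]
      · positivity
      · obtain ⟨h1, h2⟩ := (mem_idealsUpTo hX).1 hI
        have : (1 : ℝ) ≤ Ideal.absNorm I := by exact_mod_cast absNorm_pos h1
        linarith
    rcases le_total Y X with hYX | hXY
    · have := (hX₁ X ((le_max_left _ _).trans hYX)).2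
      rw [div_lt_iff₀ (by linarith)] at this
      nlinarith [Nat.cast_nonneg (α := ℝ) (idealsUpTo K Y).card]
    · have hmono : (idealsUpTo K X).card ≤ (idealsUpTo K Y).card := card_le_card fun I hI => by
        obtain ⟨h1, h2⟩ := (mem_idealsUpTo hX).1 hI
        exact (mem_idealsUpTo (hX.trans hXY)).2 ⟨h1, h2.trans hXY⟩
      have : ((idealsUpTo K X).card : ℝ) ≤ (idealsUpTo K Y).card := by exact_mod_cast hmono
      nlinarith [Nat.cast_nonneg (α := ℝ) (idealsUpTo K Y).card, ha]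
  · have := (hX₁ X ((le_max_left _ _).trans hX)).1
    rw [lt_div_iff₀ (by linarith [le_max_right X₁ 1])] at this
    linarith

/-- The sum of the inverse squares of large norms is small. -/
theorem tail_le {C : ℝ} (hC : 0 ≤ C)
    (hcount : ∀ X : ℝ, 0 ≤ X → ((idealsUpTo K X).card : ℝ) ≤ C * X) (J : ℕ)
    (S : Finset (Ideal (𝓞 K))) (hS : ∀ G ∈ S, G ≠ ⊥ ∧ 2 ^ J ≤ Ideal.absNorm G) :
    ∑ G ∈ S, ((Ideal.absNorm G : ℝ) ^ 2)⁻¹ ≤ 4 * C * (1 / 2) ^ J := by
  set f : Ideal (𝓞 K) → ℕ := fun G => Nat.log 2 (Ideal.absNorm G) - J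
  set N := S.sup f + 1
  have hf : ∀ G ∈ S, f G ∈ range N := fun G hG => by
    have := Finset.le_sup (f := f) hG
    simp only [N, mem_range]; omega
  rw [← sum_fiberwise_of_maps_to hf]
  calc ∑ j ∈ range N, ∑ G ∈ S with f G = j, ((Ideal.absNorm G : ℝ) ^ 2)⁻¹
      ≤ ∑ j ∈ range N, C * 2 ^ (J + j + 1) * (((2 : ℝ) ^ (J + j)) ^ 2)⁻¹ := by
        refine sum_le_sum fun j _ => ?_
        have hb : ∀ G ∈ S.filter (fun G => f G = j), 2 ^ (J + j) ≤ Ideal.absNorm G ∧
            Ideal.absNorm G < 2 ^ (J + j + 1) := fun G hG => by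
          obtain ⟨hGS, hj⟩ := mem_filter.1 hG
          obtain ⟨h0, h1⟩ := hS G hGS
          have hpos := absNorm_pos h0
          have hJ : J ≤ Nat.log 2 (Ideal.absNorm G) := Nat.le_log_of_pow_le (by norm_num) h1
          have e : J + j = Nat.log 2 (Ideal.absNorm G) := by simp only [f] at hj; omega
          rw [e]
          exact ⟨Nat.pow_log_le_self 2 hpos.ne', Nat.lt_pow_succ_log_self (by norm_num) _⟩
        refine (sum_le_card_nsmul _ _ (((2 : ℝ) ^ (J + j)) ^ 2)⁻¹ fun G hG => ?_).trans ?_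
        · gcongr
          exact_mod_cast (hb G hG).1
        · rw [nsmul_eq_mul]
          refine mul_le_mul_of_nonneg_right ?_ (by positivity)
          refine le_trans (Nat.cast_le.2 (card_le_card fun G hG => ?_)) (hcount _ (by positivity))
          exact (mem_idealsUpTo (by positivity)).2
            ⟨(hS G (mem_filter.1 hG).1).1, by exact_mod_cast (hb G hG).2.le⟩
    _ = 2 * C * (1 / 2) ^ J * ∑ j ∈ range N, (1 / 2 : ℝ) ^ j := by
        rw [mul_sum]
        refine sum_congr rfl fun j _ => ?_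
        rw [one_div_pow, one_div_pow, pow_add, pow_add]
        field_simp
    _ ≤ 2 * C * (1 / 2) ^ J * 2 := by
        refine mul_le_mul_of_nonneg_left ?_ (by positivity)
        exact sum_geometric_two_le N
    _ = _ := by ring

/-- **Squarefree ideals.** -/
theorem exists_squarefree_lower : ∃ c X₀ : ℝ, 0 < c ∧ ∀ X : ℝ, X₀ ≤ X →
    ∃ S : Finset (Ideal (𝓞 K)), c * X ≤ S.card ∧
      ∀ I ∈ S, I ≠ ⊥ ∧ Squarefree I ∧ (Ideal.absNorm I : ℝ) ≤ X := by
  obtain ⟨C, κ, X₁, hC, hκ, hup, hlow⟩ := ideal_count (K := K)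
  obtain ⟨J, hJ⟩ := exists_pow_lt_of_lt_one (x := κ / 2 / (4 * C ^ 2 + 1)) (by positivity)
    (show (1 / 2 : ℝ) < 1 by norm_num)
  set A := idealsUpTo K (2 ^ J)
  have hA : (0 : ℝ) < A.card := Nat.cast_pos.2 (card_pos.2 ⟨⊤, (mem_idealsUpTo (by positivity)).2
    ⟨top_ne_bot, by rw [Ideal.absNorm_top]; exact_mod_cast Nat.one_le_two_pow⟩⟩)
  refine ⟨κ / 2 / A.card, max X₁ 1, by positivity, fun X hX => ?_⟩
  have hX0 : 0 ≤ X := by linarith [le_max_right X₁ 1]
  set S := (idealsUpTo K X).filter fun I => Squarefree I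
  refine ⟨S, ?_, fun I hI => ⟨((mem_idealsUpTo hX0).1 (mem_filter.1 hI).1).1, (mem_filter.1 hI).2,
    ((mem_idealsUpTo hX0).1 (mem_filter.1 hI).1).2⟩⟩
  set T := (idealsUpTo K X).filter fun G => 2 ^ J ≤ Ideal.absNorm G
  have hsub : idealsUpTo K X ⊆ (S ×ˢ A).image (fun p => p.1 * p.2 ^ 2) ∪
      T.biUnion fun G => (idealsUpTo K (X / (Ideal.absNorm G : ℝ) ^ 2)).image
        fun M => M * G ^ 2 := by
    intro I hI
    obtain ⟨hI0, hIn⟩ := (mem_idealsUpTo hX0).1 hI
    obtain ⟨M, G, hM, hG, hsf, rfl⟩ := exists_squarefree_mul_sq I hI0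
    rw [map_mul, map_pow, Nat.cast_mul, Nat.cast_pow] at hIn
    have hM1 : (1 : ℝ) ≤ Ideal.absNorm M := by exact_mod_cast absNorm_pos hM
    have hG1 : (1 : ℝ) ≤ Ideal.absNorm G := by exact_mod_cast absNorm_pos hG
    have hMX : (Ideal.absNorm M : ℝ) ≤ X :=
      (le_mul_of_one_le_right (by positivity) (one_le_pow₀ hG1)).trans hIn
    have hGX : (Ideal.absNorm G : ℝ) ≤ X :=
      ((le_self_pow₀ hG1 two_ne_zero).trans (le_mul_of_one_le_left (by positivity) hM1)).trans hIn
    by_cases h : (Ideal.absNorm G : ℝ) ≤ 2 ^ J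
    · exact mem_union_left _ (mem_image.2 ⟨(M, G), mem_product.2
        ⟨mem_filter.2 ⟨(mem_idealsUpTo hX0).2 ⟨hM, hMX⟩, hsf⟩,
          (mem_idealsUpTo (by positivity)).2 ⟨hG, h⟩⟩, rfl⟩)
    · refine mem_union_right _ (mem_biUnion.2 ⟨G, mem_filter.2
        ⟨(mem_idealsUpTo hX0).2 ⟨hG, hGX⟩, by exact_mod_cast (not_le.1 h).le⟩, mem_image.2
          ⟨M, (mem_idealsUpTo (by positivity)).2 ⟨hM, ?_⟩, rfl⟩⟩)
      rw [le_div_iff₀ (by positivity)]
      exact hIn
  have h1 := card_le_card hsub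
  have h2 : ((idealsUpTo K X).card : ℝ) ≤ S.card * A.card + C * X * (4 * C * (1 / 2) ^ J) := by
    calc ((idealsUpTo K X).card : ℝ) ≤ ((S.card * A.card : ℕ) : ℝ) +
        ((∑ G ∈ T, (idealsUpTo K (X / (Ideal.absNorm G : ℝ) ^ 2)).card : ℕ) : ℝ) := by
          rw [← Nat.cast_add, Nat.cast_le]
          exact h1.trans ((card_union_le _ _).trans (add_le_add
            (card_image_le.trans (card_product _ _).le)
            (card_biUnion_le.trans (sum_le_sum fun G _ => card_image_le))))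
      _ ≤ _ := by
          push_cast
          gcongr
          calc ∑ G ∈ T, ((idealsUpTo K (X / (Ideal.absNorm G : ℝ) ^ 2)).card : ℝ)
              ≤ ∑ G ∈ T, C * X * ((Ideal.absNorm G : ℝ) ^ 2)⁻¹ := sum_le_sum fun G _ =>
                (hup _ (by positivity)).trans (le_of_eq (by ring))
            _ ≤ _ := by
                rw [← mul_sum]
                refine mul_le_mul_of_nonneg_left (tail_le hC hup J T fun G hG => ?_) (by positivity)
                exact ⟨((mem_idealsUpTo hX0).1 (mem_filter.1 hG).1).1, (mem_filter.1 hG).2⟩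
  have h3 := hlow X ((le_max_left _ _).trans hX)
  rw [lt_div_iff₀ (by positivity)] at hJ
  rw [div_mul_eq_mul_div, div_le_iff₀ hA]
  nlinarith [mul_le_mul_of_nonneg_left hJ.le hX0, mul_nonneg hX0 (pow_nonneg
    (show (0 : ℝ) ≤ 1 / 2 by norm_num) J)]

end FA.QuarticLower
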