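import Fermat.Agent.QuarticFieldsCount.Main
import Fermat.Agent.QuarticLower.SquarefreeIdeals
import Mathlib.FieldTheory.KummerPolynomial

/-!
# Quadratic extensions from below

A squarefree ideal times a fixed ideal is principal for a positive proportion of them; the square
roots of the generators give pairwise different quadratic extensions of bounded discriminant.
-/

set_option autoImplicit false
set_option linter.style.haveILetI false

noncomputable section

open NumberField Module Finset
open scoped Classical nonZeroDivisors Polynomial IntermediateField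

namespace FA.QuarticLower

variable {K : Type} [Field K] [NumberField K]

/-- A squarefree ideal is fixed by its class up to squares. -/
theorem eq_of_squarefree {I I' G G' : Ideal (𝓞 K)} (hI : Squarefree I) (hI' : Squarefree I')
    (hI0 : I ≠ ⊥) (hI0' : I' ≠ ⊥) (hG : G ≠ ⊥) (hG' : G' ≠ ⊥)
    (h : I * G ^ 2 = I' * G' ^ 2) : I = I' := by
  open UniqueFactorizationMonoid in
  have hcount : normalizedFactors I = normalizedFactors I' := by
    ext P
    have h' := congrArg (fun J => Multiset.count P (normalizedFactors J)) h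
    simp only [normalizedFactors_mul hI0 (pow_ne_zero 2 hG),
      normalizedFactors_mul hI0' (pow_ne_zero 2 hG'), normalizedFactors_pow, Multiset.count_add,
      Multiset.count_nsmul] at h'
    have h1 := Multiset.nodup_iff_count_le_one.1
      ((squarefree_iff_nodup_normalizedFactors hI0).1 hI) P
    have h2 := Multiset.nodup_iff_count_le_one.1
      ((squarefree_iff_nodup_normalizedFactors hI0').1 hI') P
    omega
  rw [← Ideal.prod_normalizedFactors_eq_self hI0, ← Ideal.prod_normalizedFactors_eq_self hI0',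
    hcount]

/-- Generators of squarefree ideals times one ideal differ modulo squares. -/
theorem eq_of_square_ratio {I I' J : Ideal (𝓞 K)} (hI : Squarefree I) (hI' : Squarefree I')
    (hI0 : I ≠ ⊥) (hI0' : I' ≠ ⊥) (hJ : J ≠ ⊥) {a a' : 𝓞 K} (ha : I * J = Ideal.span {a})
    (ha' : I' * J = Ideal.span {a'}) (w : K) (hw : (a' : K) = (a : K) * w ^ 2) : I = I' := by
  obtain ⟨x, s, hs, rfl⟩ := IsFractionRing.div_surjective (A := 𝓞 K) w
  have hs0 : s ≠ 0 := nonZeroDivisors.ne_zero hs
  have hsK : algebraMap (𝓞 K) K s ≠ 0 := RingOfIntegers.coe_ne_zero_iff.2 hs0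
  have ha'0 : a' ≠ 0 := fun h => mul_ne_zero hI0' hJ (by rw [ha', h]; simp)
  have e : a' * s ^ 2 = a * x ^ 2 := by
    refine RingOfIntegers.coe_injective ?_
    rw [map_mul, map_mul, map_pow, map_pow,
      show algebraMap (𝓞 K) K a' = (a' : K) from rfl, hw]
    field_simp
  have hx : x ≠ 0 := fun h => mul_ne_zero ha'0 (pow_ne_zero 2 hs0) (by rw [e, h]; ring)
  refine (eq_of_squarefree hI' hI hI0' hI0 (G := Ideal.span {s}) (G' := Ideal.span {x})
    (by simpa using hs0) (by simpa using hx) (mul_right_cancel₀ hJ ?_)).symm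
  rw [mul_right_comm, ha', mul_right_comm I, ha, Ideal.span_singleton_pow,
    Ideal.span_singleton_pow, Ideal.span_singleton_mul_span_singleton,
    Ideal.span_singleton_mul_span_singleton, e]

/-- The extension by a square root. -/
theorem exists_sqrt_field {α : K} (hα : ¬ IsSquare α) :
    ∃ (L : Type) (_ : Field L) (_ : NumberField L) (_ : Algebra K L),
      finrank K L = 2 ∧ ∃ s : L, s ^ 2 = algebraMap K L α := by
  set f : K[X] := Polynomial.X ^ 2 - Polynomial.C α
  haveI : Fact (Irreducible f) := ⟨(X_pow_sub_C_irreducible_iff_of_prime Nat.prime_two).2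
    fun b hb => hα ⟨b, by rw [← hb, sq]⟩⟩
  have hm : f.Monic := Polynomial.monic_X_pow_sub_C α two_ne_zero
  haveI : FiniteDimensional K (AdjoinRoot f) := (AdjoinRoot.powerBasis hm.ne_zero).finite
  haveI : CharZero (AdjoinRoot f) :=
    charZero_of_injective_algebraMap (algebraMap K (AdjoinRoot f)).injective
  haveI : FiniteDimensional ℚ (AdjoinRoot f) := Module.Finite.trans K (AdjoinRoot f)
  haveI hNF : NumberField (AdjoinRoot f) := {}
  refine ⟨AdjoinRoot f, inferInstance, hNF, inferInstance, ?_, AdjoinRoot.root f, ?_⟩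
  · rw [(AdjoinRoot.powerBasis hm.ne_zero).finrank, AdjoinRoot.powerBasis_dim,
      Polynomial.natDegree_X_pow_sub_C]
  · have h : f.eval₂ (AdjoinRoot.of f) (AdjoinRoot.root f) = 0 := AdjoinRoot.eval₂_root f
    simp only [f, Polynomial.eval₂_sub, Polynomial.eval₂_X_pow, Polynomial.eval₂_C] at h
    rw [AdjoinRoot.algebraMap_eq]
    exact sub_eq_zero.1 h

/-- Two square roots in one quadratic extension. -/
theorem square_ratio {L : Type} [Field L] [NumberField L] [Algebra K L] (h2 : finrank K L = 2)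
    {α α' : K} (hα : ¬ IsSquare α) (hα' : ¬ IsSquare α') {s t : L}
    (hs : s ^ 2 = algebraMap K L α) (ht : t ^ 2 = algebraMap K L α') :
    ∃ w : K, α' = α * w ^ 2 := by
  have hnot : ∀ (γ : K) (r : L), ¬ IsSquare γ → r ^ 2 = algebraMap K L γ →
      ∀ b, algebraMap K L b ≠ r := fun γ r hγ hr b hb =>
    hγ ⟨b, (algebraMap K L).injective (by rw [← hr, ← hb, map_mul, sq])⟩
  have hli : LinearIndependent K ![(1 : L), s] := by
    rw [LinearIndependent.pair_iff' one_ne_zero]
    intro b hb
    exact hnot α s hα hs b (by rwa [Algebra.smul_def, mul_one] at hb)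
  let B := basisOfLinearIndependentOfCardEqFinrank hli (by simp [h2])
  have ht' : t = algebraMap K L (B.repr t 0) + algebraMap K L (B.repr t 1) * s := by
    conv_lhs => rw [← B.sum_repr t, Fin.sum_univ_two]
    simp [B, Algebra.smul_def]
  set a := B.repr t 0
  set b := B.repr t 1
  by_cases hab : a = 0
  · refine ⟨b, (algebraMap K L).injective ?_⟩
    rw [← ht, ht', hab, map_zero, zero_add, mul_pow, hs, map_mul, map_pow]
    ring
  · exfalso
    have hb : b ≠ 0 := fun h => hnot α' t hα' ht a (by rw [ht', h, map_zero, zero_mul, add_zero])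
    refine hnot α s hα hs ((α' - a ^ 2 - b ^ 2 * α) / (2 * a * b)) ?_
    rw [map_div₀, div_eq_iff (by
      rw [map_ne_zero]; exact mul_ne_zero (mul_ne_zero two_ne_zero hab) hb)]
    simp only [map_sub, map_mul, map_pow, map_ofNat, ← ht, ← hs]
    rw [ht']
    ring

/-- **The discriminant of the extension.** -/
theorem discr_sqrt_le {L : Type} [Field L] [NumberField L] [Algebra K L] (h2 : finrank K L = 2)
    {a : 𝓞 K} (ha : ¬ IsSquare (a : K)) {s : L} (hs : s ^ 2 = algebraMap K L (a : K)) :
    (discr L).natAbs ≤ 4 ^ finrank ℚ K * (Algebra.norm ℤ a).natAbs * (discr K).natAbs ^ 2 := by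
  have hint : IsIntegral ℤ s :=
    IsIntegral.of_pow two_pos (hs ▸ (RingOfIntegers.isIntegral_coe a).algebraMap)
  set S : 𝓞 L := ⟨s, hint⟩
  have hsK : ∀ b, algebraMap K L b ≠ s := fun b hb =>
    ha ⟨b, (algebraMap K L).injective (by rw [← hs, ← hb, map_mul, sq])⟩
  have hintK : IsIntegral K s := IsIntegral.of_finite K _
  have hdeg : (minpoly K s).natDegree = 2 := le_antisymm (h2 ▸ minpoly.natDegree_le _)
    ((minpoly.two_le_natDegree_iff hintK).mpr fun ⟨b, hb⟩ => hsK b hb)
  have hmin : minpoly K s = Polynomial.X ^ 2 - Polynomial.C (a : K) :=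
    (Polynomial.eq_of_monic_of_dvd_of_natDegree_le (minpoly.monic hintK)
      (Polynomial.monic_X_pow_sub_C _ two_ne_zero) (minpoly.dvd K s (by simp [hs]))
      (by rw [hdeg, Polynomial.natDegree_X_pow_sub_C])).symm
  have htop : Algebra.adjoin K {(algebraMap (𝓞 L) L S)} = ⊤ := by
    rw [show algebraMap (𝓞 L) L S = s from rfl,
      ← IntermediateField.adjoin_simple_toSubalgebra_of_isAlgebraic
      (Algebra.IsAlgebraic.isAlgebraic _),
      IntermediateField.eq_of_le_of_finrank_eq (F := K⟮s⟯) (E := ⊤) le_top (by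
        rw [IntermediateField.adjoin.finrank hintK, hdeg, IntermediateField.finrank_top', h2]),
      IntermediateField.top_toSubalgebra]
  have hmem := aeval_derivative_mem_differentIdeal (𝓞 K) K L S htop
  have hminO : minpoly (𝓞 K) S = Polynomial.X ^ 2 - Polynomial.C a := by
    refine Polynomial.map_injective (algebraMap (𝓞 K) K) RingOfIntegers.coe_injective ?_
    rw [← minpoly.isIntegrallyClosed_eq_field_fractions K L
      (Algebra.IsIntegral.isIntegral (R := 𝓞 K) S),
      show algebraMap (𝓞 L) L S = s from rfl, hmin]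
    simp
  rw [hminO] at hmem
  simp only [Polynomial.derivative_sub, Polynomial.derivative_X_pow, Polynomial.derivative_C,
    sub_zero, map_mul, show (2 : ℕ) - 1 = 1 from rfl, pow_one, Polynomial.aeval_X,
    Nat.cast_ofNat, map_ofNat] at hmem
  have hdvd := Ideal.absNorm_dvd_absNorm_of_le ((Ideal.span_singleton_le_iff_mem _).2 hmem)
  rw [Ideal.absNorm_span_singleton, map_mul, Int.natAbs_mul] at hdvd
  have hn2 : finrank ℚ L = finrank ℚ K * 2 := by rw [← h2, Module.finrank_mul_finrank]
  have hN2 : (Algebra.norm ℤ (2 : 𝓞 L)).natAbs = 4 ^ finrank ℚ K := by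
    rw [show (2 : 𝓞 L) = algebraMap ℤ (𝓞 L) 2 from (map_ofNat _ 2).symm, Algebra.norm_algebraMap,
      RingOfIntegers.rank, hn2, Int.natAbs_pow, mul_comm, pow_mul]
    rfl
  have hNs : (Algebra.norm ℤ S).natAbs = (Algebra.norm ℤ a).natAbs := by
    refine Nat.pow_left_injective two_ne_zero ?_
    show _ ^ 2 = _ ^ 2
    rw [← Int.natAbs_pow, ← Int.natAbs_pow, ← map_pow]
    congr 1
    refine Int.cast_injective (α := ℚ) ?_
    rw [Algebra.coe_norm_int, RingOfIntegers.coe_eq_algebraMap, map_pow,
      show algebraMap (𝓞 L) L S = s from rfl, hs,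
      Int.cast_pow, Algebra.coe_norm_int, ← Algebra.norm_norm (R := ℚ) (S := K),
      Algebra.norm_algebraMap, h2, map_pow]
  rw [hN2, hNs] at hdvd
  rw [FA.QuarticFieldsCount.natAbs_discr_tower h2]
  refine Nat.mul_le_mul_right _ (Nat.le_of_dvd ?_ hdvd)
  refine Nat.mul_pos (by positivity) (Int.natAbs_pos.2 (Algebra.norm_ne_zero_iff.2 fun h => ha ?_))
  rw [h]; exact ⟨0, by simp⟩

/-- **Quadratic extensions, from below.** -/
theorem quadratic_extensions_lower (K : Type) [Field K] [NumberField K] : ∃ c X₀ : ℝ, 0 < c ∧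
    ∀ X : ℝ, X₀ ≤ X → ∃ (n : ℕ) (L : Fin n → Type) (_ : ∀ i, Field (L i))
      (_ : ∀ i, NumberField (L i)), c * X ≤ n ∧ (∀ i, finrank ℚ (L i) = 2 * finrank ℚ K) ∧
        (∀ i, Nonempty (K →+* L i)) ∧ (∀ i, |(discr (L i) : ℝ)| ≤ X) ∧
          ∀ i j, Nonempty (L i ≃+* L j) → i = j := by
  obtain ⟨c, X₀, hc, hsf⟩ := exists_squarefree_lower (K := K)
  set h := Fintype.card (ClassGroup (𝓞 K))
  have hh : (0 : ℝ) < h := by exact_mod_cast Fintype.card_pos
  set d := finrank ℚ K
  have hd : (0 : ℝ) < d := by exact_mod_cast (finrank_pos : 0 < finrank ℚ K)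
  choose rep hrep using fun C : ClassGroup (𝓞 K) => ClassGroup.mk0_surjective C⁻¹
  set R := univ.sup fun C => Ideal.absNorm (rep C : Ideal (𝓞 K))
  set B : ℝ := 4 ^ d * R * ((discr K).natAbs : ℝ) ^ 2
  have hR : 0 < R := (absNorm_pos (nonZeroDivisors.coe_ne_zero (rep 1))).trans_le
    (le_sup (f := fun C => Ideal.absNorm (rep C : Ideal (𝓞 K))) (mem_univ _))
  have hB : 0 < B := by
    have := Int.natAbs_pos.2 (discr_ne_zero K)
    positivity
  refine ⟨c / (2 * h * d * B), max (B * X₀) (2 * h * B / c), by positivity, fun X hX => ?_⟩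
  obtain ⟨S, hS, hSI⟩ := hsf (X / B) ((le_div_iff₀' hB).2 ((le_max_left _ _).trans hX))
  let cls : Ideal (𝓞 K) → ClassGroup (𝓞 K) := fun I =>
    if hI : I ∈ (Ideal (𝓞 K))⁰ then ClassGroup.mk0 ⟨I, hI⟩ else 1
  obtain ⟨C, -, hC⟩ := exists_max_image (univ : Finset (ClassGroup (𝓞 K)))
    (fun C => (S.filter fun I => cls I = C).card) univ_nonempty
  set S₁ := S.filter fun I => cls I = C
  have hS₁ : (S.card : ℝ) ≤ h * S₁.card := by
    rw [card_eq_sum_card_fiberwise (f := cls) (t := univ) fun _ _ => mem_univ _]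
    push_cast
    calc _ ≤ ∑ _C : ClassGroup (𝓞 K), (S₁.card : ℝ) :=
          sum_le_sum fun D _ => by exact_mod_cast hC D (mem_univ _)
      _ = _ := by rw [sum_const, card_univ, nsmul_eq_mul]
  set J : Ideal (𝓞 K) := ↑(rep C) with hJdef
  have hJ : J ≠ ⊥ := nonZeroDivisors.coe_ne_zero _
  have hgen : ∀ I : S₁, ∃ a : 𝓞 K, (I : Ideal (𝓞 K)) * J = Ideal.span {a} := by
    rintro ⟨I, hI⟩
    obtain ⟨hIS, hcls⟩ := mem_filter.1 hI
    have hI0 : I ∈ (Ideal (𝓞 K))⁰ := mem_nonZeroDivisors_of_ne_zero (hSI I hIS).1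
    simp only [cls, dif_pos hI0] at hcls
    obtain ⟨x, -, hx⟩ := ClassGroup.mk0_eq_mk0_inv_iff.1
      (show ClassGroup.mk0 ⟨I, hI0⟩ = (ClassGroup.mk0 (rep C))⁻¹ by rw [hrep, inv_inv, hcls])
    exact ⟨x, hx⟩
  choose a ha using hgen
  have key : ∀ (I I' : S₁) (w : K), (a I' : K) = (a I : K) * w ^ 2 → I = I' := fun I I' w hw => by
    obtain ⟨h1, h2, -⟩ := hSI I.1 (mem_filter.1 I.2).1
    obtain ⟨h3, h4, -⟩ := hSI I'.1 (mem_filter.1 I'.2).1
    exact Subtype.ext (eq_of_square_ratio h2 h4 h1 h3 hJ (ha I) (ha I') w hw)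
  set T := (univ : Finset S₁).filter fun I => ¬ IsSquare (a I : K)
  have hT : (S₁.card : ℝ) ≤ T.card + 1 := by
    have h1 : ((univ : Finset S₁).filter fun I => IsSquare (a I : K)).card ≤ 1 := by
      refine card_le_one.2 fun I hI I' hI' => ?_
      obtain ⟨x, hx⟩ := (mem_filter.1 hI).2
      obtain ⟨y, hy⟩ := (mem_filter.1 hI').2
      have hx0 : x ≠ 0 := fun e => by
        have hz : a I = 0 := RingOfIntegers.coe_eq_zero_iff.1 (hx.trans (by rw [e, mul_zero]))
        exact mul_ne_zero (hSI I.1 (mem_filter.1 I.2).1).1 hJ (by rw [ha I, hz]; simp)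
      exact key I I' (y / x) (by rw [hy, hx]; field_simp)
    have h2 := card_filter_add_card_filter_not (s := (univ : Finset S₁))
      fun I => IsSquare (a I : K)
    rw [card_univ, Fintype.card_coe] at h2
    have : S₁.card ≤ T.card + 1 := by simp only [T]; omega
    exact_mod_cast this
  choose L hLF hLN hLA hL2 s hs using fun I : T => exists_sqrt_field (mem_filter.1 I.2).2
  let st : Setoid T := ⟨fun p q => Nonempty (L p ≃+* L q), fun p => ⟨RingEquiv.refl _⟩,
    fun ⟨f⟩ => ⟨f.symm⟩, fun ⟨f⟩ ⟨g⟩ => ⟨f.trans g⟩⟩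
  have hfib : ∀ q ∈ (univ : Finset (Quotient st)),
      (univ.filter fun p : T => (Quotient.mk st p) = q).card ≤ d := by
    intro q _
    obtain ⟨p₀, rfl⟩ := Quotient.exists_rep q
    set P := univ.filter fun p : T => Quotient.mk st p = Quotient.mk st p₀
    let σ := fun p : P => (show Nonempty (L p.1 ≃+* L p₀) from
      Quotient.exact (mem_filter.1 p.2).2).some
    have hinj : Function.Injective fun p : P => (σ p).toRingHom.comp (algebraMap K (L p.1)) := by
      intro p p' e
      letI : Algebra K (L p₀) := ((σ p).toRingHom.comp (algebraMap K (L p.1))).toAlgebra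
      have e1 : ∀ x : K, σ p (algebraMap K (L p.1) x) = algebraMap K (L p₀) x := fun _ => rfl
      have e2 : ∀ x : K, σ p' (algebraMap K (L p'.1) x) = algebraMap K (L p₀) x := fun x =>
        (RingHom.congr_fun e x).symm
      have h2' : finrank K (L p₀) = 2 := by
        rw [← (AlgEquiv.ofRingEquiv (f := σ p) e1).toLinearEquiv.finrank_eq]
        exact hL2 p.1
      obtain ⟨w, hw⟩ := square_ratio h2' (mem_filter.1 p.1.2).2 (mem_filter.1 p'.1.2).2
        (s := σ p (s p.1)) (t := σ p' (s p'.1)) (by rw [← map_pow, hs, e1])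
        (by rw [← map_pow, hs, e2])
      exact Subtype.ext (Subtype.ext (key _ _ w hw))
    obtain ⟨ι₀⟩ : Nonempty (L p₀ →+* ℂ) := inferInstance
    have hinj' : Function.Injective fun p : P =>
        ι₀.comp ((σ p).toRingHom.comp (algebraMap K (L p.1))) := fun p p' e =>
      hinj (RingHom.ext fun x => ι₀.injective (RingHom.congr_fun e x))
    have := Fintype.card_le_of_injective _ hinj'
    rwa [Fintype.card_coe, Embeddings.card] at this
  have hcard := card_le_mul_card_image_of_maps_to (s := (univ : Finset T)) (t := univ)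
    (f := fun p => Quotient.mk st p) (fun p _ => mem_univ _) d hfib
  rw [card_univ, card_univ, Fintype.card_coe] at hcard
  set n := Fintype.card (Quotient st)
  set ε := (Fintype.equivFin (Quotient st)).symm
  refine ⟨n, fun i => L (ε i).out, fun i => hLF _, fun i => hLN _, ?_, fun i => ?_,
    fun i => ⟨algebraMap K (L (ε i).out)⟩, fun i => ?_, fun i j hij => ε.injective ?_⟩
  · have hcard' : (T.card : ℝ) ≤ d * n := by exact_mod_cast hcard
    have h2 : 2 * h * B ≤ c * X := by
      have := (le_max_right (B * X₀) _).trans hX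
      rwa [div_le_iff₀' hc] at this
    have hS' : c * X ≤ B * S.card := by
      rw [← mul_div_assoc, div_le_iff₀ hB] at hS; linarith
    rw [div_mul_eq_mul_div, div_le_iff₀ (by positivity)]
    nlinarith [mul_le_mul_of_nonneg_left (hS₁.trans (mul_le_mul_of_nonneg_left
      (hT.trans (by linarith : (T.card : ℝ) + 1 ≤ d * n + 1)) hh.le)) hB.le]
  · rw [mul_comm, ← hL2 (ε i).out, Module.finrank_mul_finrank]
  · set p := (ε i).out
    obtain ⟨h1, -, hN⟩ := hSI p.1.1 (mem_filter.1 p.1.2).1
    have hle := discr_sqrt_le (hL2 p) (mem_filter.1 p.2).2 (hs p)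
    have hnorm : ((Algebra.norm ℤ (a p.1)).natAbs : ℝ) ≤ X / B * R := by
      rw [← Ideal.absNorm_span_singleton, ← ha p.1, map_mul, Nat.cast_mul]
      exact mul_le_mul hN (Nat.cast_le.2 (le_sup (f := fun C =>
        Ideal.absNorm (rep C : Ideal (𝓞 K))) (mem_univ C))) (Nat.cast_nonneg _)
        ((Nat.cast_nonneg _).trans hN)
    rw [← Int.cast_abs, Int.abs_eq_natAbs, Int.cast_natCast]
    calc ((discr (L p)).natAbs : ℝ)
        ≤ ((4 ^ d * (Algebra.norm ℤ (a p.1)).natAbs * (discr K).natAbs ^ 2 : ℕ) : ℝ) :=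
          Nat.cast_le.2 hle
      _ ≤ 4 ^ d * (X / B * R) * ((discr K).natAbs : ℝ) ^ 2 := by
          push_cast
          exact mul_le_mul_of_nonneg_right (mul_le_mul_of_nonneg_left hnorm (by positivity))
            (by positivity)
      _ = X := by
          simp only [B]
          have : (0 : ℝ) < ((discr K).natAbs : ℝ) :=
            Nat.cast_pos.2 (Int.natAbs_pos.2 (discr_ne_zero K))
          field_simp
  · rw [← Quotient.out_eq (ε i), ← Quotient.out_eq (ε j)]
    exact Quotient.sound hij

end FA.QuarticLower
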