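import Fermat.Agent.QuarticResolvent.Depressed

/-!
# The resolvent and the quadratic subfields

A quadratic subfield gives the resolvent of a trace-zero generator a rational root.
-/

set_option autoImplicit false
set_option linter.style.haveILetI false

noncomputable section

open NumberField Module Polynomial
open FA.QuarticResolvent (Depressed resEval)
open scoped Classical IntermediateField

namespace FA.QuarticLower

variable {L : Type} [Field L] [NumberField L]

/-- An element of a quadratic field satisfies a monic quadratic equation. -/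
theorem exists_monic_quadratic {k : Type} [Field k] [NumberField k] (hk : finrank ℚ k = 2) (a : k)
    (ha : ∀ u : ℚ, (u : k) ≠ a) : ∃ m n : ℚ, a ^ 2 + (m : k) * a + (n : k) = 0 := by
  have hint : IsIntegral ℚ a := IsIntegral.of_finite ℚ _
  have hdeg : (minpoly ℚ a).natDegree = 2 := le_antisymm (hk ▸ minpoly.natDegree_le _)
    ((minpoly.two_le_natDegree_iff hint).mpr fun ⟨u, hu⟩ => ha u (by rw [← hu, eq_ratCast]))
  refine ⟨(minpoly ℚ a).coeff 1, (minpoly ℚ a).coeff 0, ?_⟩
  have h := minpoly.aeval ℚ a
  rw [aeval_eq_sum_range, hdeg, Finset.sum_range_succ, Finset.sum_range_succ,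
    Finset.sum_range_succ, Finset.sum_range_zero,
    show (minpoly ℚ a).coeff 2 = 1 from hdeg ▸ minpoly.monic hint] at h
  simp only [Rat.smul_def, Rat.cast_one, pow_zero, pow_one, mul_one, one_mul, zero_add] at h
  linear_combination h

/-- A resolvent with a root in a quadratic field has a rational root. -/
theorem rational_root_of_quadratic {k : Type} [Field k] [NumberField k] (hk : finrank ℚ k = 2)
    {p q r : ℚ} {z : k} (hz : resEval (p : k) q r z = 0) : ∃ u : ℚ, resEval p q r u = 0 := by
  by_cases hrat : ∃ u : ℚ, (u : k) = z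
  · obtain ⟨u, rfl⟩ := hrat
    refine ⟨u, ?_⟩
    unfold resEval at hz ⊢
    exact_mod_cast hz
  push Not at hrat
  obtain ⟨m, n, hmn⟩ := exists_monic_quadratic hk z hrat
  set α := p ^ 2 - 4 * r - (n + m * (2 * p - m))
  set β := -q ^ 2 - n * (2 * p - m)
  have hlin : (α : k) * z + (β : k) = 0 := by
    unfold resEval at hz
    simp only [α, β]
    push_cast
    linear_combination hz - (z + (2 * (p : k) - (m : k))) * hmn
  have hα : α = 0 := by
    by_contra h
    refine hrat (-β / α) ?_
    push_cast
    rw [div_eq_iff (Rat.cast_ne_zero.2 h)]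
    linear_combination -hlin
  have hβ : β = 0 := by simpa [hα] using hlin
  refine ⟨m - 2 * p, ?_⟩
  unfold resEval
  simp only [α, β] at hα hβ
  linear_combination (m - 2 * p) * hα + hβ

/-- **No rational root, no quadratic subfield.** -/
theorem no_quadratic_of_noRatRoot (D : Depressed L) (hn : finrank ℚ L = 4) (hR : D.NoRatRoot)
    (k : IntermediateField ℚ L) : finrank ℚ k ≠ 2 := by
  intro hk
  have h2 : finrank k L = 2 := by
    have := Module.finrank_mul_finrank ℚ k L
    rw [hk, hn] at this
    omega
  have hθ : ∀ v : k, (v : L) ≠ D.θ := fun v hv => by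
    have hle : ℚ⟮D.θ⟯ ≤ k := IntermediateField.adjoin_simple_le_iff.2 (hv ▸ v.2)
    rw [D.gen_eq_top hn, top_le_iff] at hle
    rw [hle, IntermediateField.finrank_top', hn] at hk
    omega
  have hint : IsIntegral k D.θ := IsIntegral.of_finite k _
  have hdeg : (minpoly k D.θ).natDegree = 2 := le_antisymm (h2 ▸ minpoly.natDegree_le _)
    ((minpoly.two_le_natDegree_iff hint).mpr fun ⟨v, hv⟩ => hθ v hv)
  set a := (minpoly k D.θ).coeff 1
  set b := (minpoly k D.θ).coeff 0
  have h : D.θ ^ 2 + (a : L) * D.θ + (b : L) = 0 := by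
    have h := minpoly.aeval k D.θ
    rw [aeval_eq_sum_range, hdeg, Finset.sum_range_succ, Finset.sum_range_succ,
      Finset.sum_range_succ, Finset.sum_range_zero,
      show (minpoly k D.θ).coeff 2 = 1 from hdeg ▸ minpoly.monic hint] at h
    simp only [IntermediateField.smul_def, smul_eq_mul, one_smul, pow_zero, pow_one, mul_one,
      zero_add] at h
    linear_combination h
  set u : k := -a ^ 3 + (a * b + a * b) - a * (D.p : k) + (D.q : k)
  set v : k := (D.r : k) - b * (a ^ 2 - b + (D.p : k))
  have hlin : (u : L) * D.θ + (v : L) = 0 := by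
    simp only [u, v]
    push_cast
    linear_combination D.root - (D.θ ^ 2 - (a : L) * D.θ + ((a : L) ^ 2 - (b : L) + (D.p : L))) * h
  have hu : u = 0 := by
    by_contra h0
    refine hθ (-v / u) ?_
    push_cast
    rw [div_eq_iff (by exact_mod_cast h0)]
    linear_combination -hlin
  have hv : v = 0 := by simpa [hu] using hlin
  obtain ⟨z, hz⟩ := rational_root_of_quadratic (p := (D.p : ℚ)) (q := (D.q : ℚ))
    (r := (D.r : ℚ)) hk (z := a ^ 2) (by
      unfold resEval
      simp only [u, v] at hu hv
      push_cast
      linear_combination (-4 * a ^ 2) * hv +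
        (-(a ^ 3) + 2 * a * b - a * (D.p : k) - (D.q : k)) * hu)
  exact hR z hz

end FA.QuarticLower
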