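import Fermat.Agent.CubicTwoTorsion.Mean
import Fermat.Agent.QuarticLower.Subfield
import Fermat.Agent.QuarticResolvent.Count

/-!
# Quartic fields from the units of cubic fields

A cubic field has a unit of norm one that is no square; the construction of a quartic field from a
class killed by two, for the trivial ideal, gives a quartic field without quadratic subfield of
comparable discriminant, and different cubic fields give different quartic fields.
-/

set_option autoImplicit false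
set_option linter.style.haveILetI false

noncomputable section

open NumberField Module Finset Filter Topology
open FA.QuarticResolvent (resEval Depressed resolvent_discr)
open FA.CubicTwoTorsion (exists_coeff exists_field noRatRoot_of_res discr_quartic_le
  exists_transfer_iso)
open scoped Classical nonZeroDivisors

namespace FA.QuarticLower

/-- **A unit of norm one that is no square.** -/
theorem exists_unit {K : Type} [Field K] [NumberField K] (hK : finrank ℚ K = 3) :
    ∃ v : (𝓞 K)ˣ, Algebra.norm ℤ (v : 𝓞 K) = 1 ∧ (∀ u : ℚ, (u : K) ≠ (v : 𝓞 K)) ∧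
      ¬ IsSquare ((v : 𝓞 K) : K) := by
  have hr : 0 < Units.rank K := by
    have h1 := InfinitePlace.card_add_two_mul_card_eq_rank K
    have h2 := InfinitePlace.card_eq_nrRealPlaces_add_nrComplexPlaces (K := K)
    rw [Units.rank]
    omega
  set i₀ : Fin (Units.rank K) := ⟨0, hr⟩
  set w := Units.fundSystem K i₀
  obtain ⟨v, hv, hvw⟩ : ∃ v : (𝓞 K)ˣ, Algebra.norm ℤ (v : 𝓞 K) = 1 ∧ (v = w ∨ v = -w) := by
    rcases Int.isUnit_iff.1 ((w.isUnit).map (Algebra.norm ℤ)) with h | h
    · exact ⟨w, h, Or.inl rfl⟩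
    · refine ⟨-w, ?_, Or.inr rfl⟩
      rw [Units.val_neg, show -(w : 𝓞 K) = algebraMap ℤ (𝓞 K) (-1) * w by simp, map_mul,
        Algebra.norm_algebraMap, RingOfIntegers.rank, hK, h]
      norm_num
  have hclass : QuotientGroup.mk (s := Units.torsion K) v = QuotientGroup.mk w := by
    rcases hvw with rfl | rfl
    · rfl
    · rw [QuotientGroup.eq, Units.torsion, CommGroup.mem_torsion]
      refine isOfFinOrder_iff_pow_eq_one.2 ⟨2, two_pos, ?_⟩
      ext
      simp
  have hsq : ¬ IsSquare ((v : 𝓞 K) : K) := by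
    rintro ⟨g, hg⟩
    have hint : IsIntegral ℤ g :=
      IsIntegral.of_pow two_pos (by rw [sq, ← hg]; exact RingOfIntegers.isIntegral_coe _)
    set g' : 𝓞 K := ⟨g, hint⟩
    have hgv : (v : 𝓞 K) = g' * g' := RingOfIntegers.coe_injective (by rw [map_mul]; exact hg)
    obtain ⟨G, hG⟩ := isUnit_of_mul_isUnit_left (hgv ▸ v.isUnit : IsUnit (g' * g'))
    obtain ⟨⟨ζ, f⟩, hf, -⟩ := Units.exist_unique_eq_mul_prod K G
    have hGv : v = G * G := Units.ext (by rw [Units.val_mul, hG]; exact hgv)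
    obtain ⟨ξ, hξ⟩ : ∃ ξ : Units.torsion K, w = ξ * v :=
      ⟨⟨w * v⁻¹, by
        have h := QuotientGroup.eq.1 hclass
        rwa [mul_comm] at h⟩, by simp⟩
    obtain ⟨⟨ζ', f'⟩, -, huniq⟩ := Units.exist_unique_eq_mul_prod K w
    have h1 := huniq (1, fun i => if i = i₀ then 1 else 0) (by
      simp [w, pow_ite, Finset.prod_ite_eq'])
    have h2 := huniq (ξ * ζ * ζ, fun i => f i + f i) (by
      simp only [Subgroup.coe_mul, zpow_add, Finset.prod_mul_distrib]
      rw [hξ, hGv, hf]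
      simp only [mul_assoc, mul_comm, mul_left_comm])
    have h := congrFun (congrArg Prod.snd (h1.trans h2.symm)) i₀
    simp only [if_pos] at h
    omega
  refine ⟨v, hv, fun u hu => hsq ?_, hsq⟩
  have hn : (u : ℚ) ^ 3 = 1 := by
    have h := congrArg (Algebra.norm ℚ) hu
    rw [← Algebra.coe_norm_int, hv, ← eq_ratCast (algebraMap ℚ K), Algebra.norm_algebraMap,
      hK] at h
    exact_mod_cast h
  have hu1 : u = 1 := by
    nlinarith [sq_nonneg (u + 1 / 2), sq_nonneg (u - 1)]
  rw [← hu, hu1, Rat.cast_one]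
  exact IsSquare.one

/-- **A cubic field gives a quartic field.** -/
theorem exists_primitive_of_cubic (K : Type) [Field K] [NumberField K] (hK : finrank ℚ K = 3) :
    ∃ (L : Type) (_ : Field L) (_ : NumberField L), finrank ℚ L = 4 ∧
      (∀ k : IntermediateField ℚ L, finrank ℚ k ≠ 2) ∧ |discr L| ≤ 256 * |discr K| ∧
      IsSquare (discr K * discr L) ∧ ∃ (D : Depressed L) (φ : K), D.NoRatRoot ∧ D.IsRes φ := by
  obtain ⟨v, hv, hirr, hsq⟩ := exists_unit hK
  obtain ⟨p, q, r, hφ⟩ := exists_coeff hK (m := 1) hirr (by rw [hv]; norm_num)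
  have hirr' : ∀ u : ℚ, (u : K) ≠ 4 * ((v : 𝓞 K) : K) := fun u hu =>
    hirr (u / 4) (by push_cast; rw [hu]; ring)
  have hsq' : ¬ IsSquare (4 * ((v : 𝓞 K) : K)) := fun ⟨s, hs⟩ =>
    hsq ⟨s / 2, by field_simp; linear_combination hs⟩
  obtain ⟨L, hF, hNF, hL, D, rfl, rfl, rfl⟩ := exists_field hK hirr' hsq' hφ
  have hR := noRatRoot_of_res D hK hirr' hφ
  have hk := no_quadratic_of_noRatRoot D hL hR
  refine ⟨L, hF, hNF, hL, hk, ?_, (resolvent_discr D hL hR hk hK hφ).2, D, _, hR, hφ⟩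
  refine discr_quartic_le D hL hR hK hφ (I := 1) (β := (v⁻¹ : (𝓞 K)ˣ)) (b₀ := 1) ?_ one_ne_zero ?_
  · rw [OneMemClass.coe_one, one_pow, eq_comm, Ideal.one_eq_top, Ideal.span_singleton_eq_top]
    exact Units.isUnit _
  · rw [mul_assoc, ← map_mul, Units.mul_inv]
    simp

/-- **Quartic fields without quadratic subfield, from below.** -/
theorem primitive_lower : ∃ c X₀ : ℝ, 0 < c ∧ ∀ X : ℝ, X₀ ≤ X →
    ∃ (n : ℕ) (L : Fin n → Type) (_ : ∀ i, Field (L i)) (_ : ∀ i, NumberField (L i)),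
      c * X ≤ n ∧ (∀ i, finrank ℚ (L i) = 4) ∧
      (∀ i, ∀ k : IntermediateField ℚ (L i), finrank ℚ k ≠ 2) ∧
      (∀ i, discr (L i) < 0) ∧ (∀ i, |(discr (L i) : ℝ)| ≤ X) ∧
      ∀ i j, Nonempty (L i ≃+* L j) → i = j := by
  obtain ⟨N, hs, hl⟩ := FA.CubicFields.Summary.davenport_heilbronn_complex
  set κ := 1 / (4 * (riemannZeta 3).re)
  have hκ : 0 < κ := by
    have := FA.CubicFields.Summary.zeta_three_pos
    positivity
  obtain ⟨X₀, hX₀⟩ := eventually_atTop.1 (hl.eventually (eventually_ge_nhds (half_lt_self hκ)))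
  refine ⟨κ / 2 / 256, 256 * max X₀ 1, by positivity, fun X hX => ?_⟩
  obtain ⟨F, _, _, hF, hne, -⟩ := hs (X / 256)
  choose L hLF hLN hL4 hk hd hsq D φ hR hφ using fun i =>
    exists_primitive_of_cubic (F i) (hF i).1
  refine ⟨N (X / 256), L, hLF, hLN, ?_, hL4, hk, fun i => ?_, fun i => ?_, fun i j h => ?_⟩
  · have h := hX₀ (X / 256) ((le_max_left _ 1).trans (by linarith))
    have hpos : (0 : ℝ) < X / 256 := by linarith [le_max_right X₀ 1]
    rw [le_div_iff₀ hpos] at h
    linarith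
  · obtain ⟨s, hs⟩ := hsq i
    have h1 := (hF i).2.1
    have h2 := discr_ne_zero (L i)
    by_contra h0
    nlinarith [mul_self_nonneg s, mul_neg_of_neg_of_pos h1 (lt_of_le_of_ne (not_lt.1 h0) h2.symm)]
  · have h : |(discr (L i) : ℝ)| ≤ 256 * |(discr (F i) : ℝ)| := by exact_mod_cast hd i
    rw [abs_of_neg (Int.cast_lt_zero.2 (hF i).2.1)] at h
    linarith [(hF i).2.2]
  · obtain ⟨σ⟩ := h
    obtain ⟨τ, -⟩ := exists_transfer_iso (hF j).1 (hF i).1 (hL4 j) (D j) (D i) (hR j) (hR i)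
      (hφ j) (hφ i) σ
    exact hne i j ⟨τ.toRingEquiv.symm⟩

end FA.QuarticLower
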