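import Fermat.Agent.QuarticCount.Main
import Fermat.Agent.QuarticLower.Primitive
import Fermat.Agent.QuarticLower.Quadratic

/-!
# Quartic fields have the exact order `X`

The fields from the units of complex cubic fields and the quadratic extensions of one quadratic
field give at least a multiple of `X` quartic fields of either shape, and there are no more.
-/

set_option autoImplicit false
set_option linter.style.haveILetI false

noncomputable section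

open NumberField Module Finset
open scoped Classical

namespace FA.QuarticLower

/-- There is a quadratic field. -/
theorem exists_quadratic_field :
    ∃ (K : Type) (_ : Field K) (_ : NumberField K), finrank ℚ K = 2 := by
  obtain ⟨K, hF, hNF, hA, h, -⟩ := exists_sqrt_field (K := ℚ) (α := -1) fun ⟨r, hr⟩ => by
    nlinarith [mul_self_nonneg r]
  refine ⟨K, hF, hNF, ?_⟩
  rw [show (DivisionRing.toRatAlgebra : Algebra ℚ K) = hA from Subsingleton.elim _ _]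
  exact h

/-- **Quartic fields with a quadratic subfield, from below.** -/
theorem quadratic_lower : ∃ c X₀ : ℝ, 0 < c ∧ ∀ X : ℝ, X₀ ≤ X →
    ∃ (n : ℕ) (L : Fin n → Type) (_ : ∀ i, Field (L i)) (_ : ∀ i, NumberField (L i)),
      c * X ≤ n ∧ (∀ i, finrank ℚ (L i) = 4) ∧
      (∀ i, ∃ k : IntermediateField ℚ (L i), finrank ℚ k = 2) ∧
      (∀ i, |(discr (L i) : ℝ)| ≤ X) ∧ ∀ i j, Nonempty (L i ≃+* L j) → i = j := by
  obtain ⟨K, _, _, hK⟩ := exists_quadratic_field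
  obtain ⟨c, X₀, hc, h⟩ := quadratic_extensions_lower K
  refine ⟨c, X₀, hc, fun X hX => ?_⟩
  obtain ⟨n, L, i1, i2, hn, h4, hφ, hd, hne⟩ := h X hX
  refine ⟨n, L, i1, i2, hn, fun i => by rw [h4, hK], fun i => ?_, hd, hne⟩
  obtain ⟨φ⟩ := hφ i
  exact ⟨φ.toRatAlgHom.fieldRange, by
    rw [← hK]
    exact ((AlgEquiv.ofInjectiveField φ.toRatAlgHom).toLinearEquiv.finrank_eq).symm⟩

/-- **The exact order.** -/
theorem theta : ∃ c C X₀ : ℝ, 0 < c ∧ ∀ X : ℝ, X₀ ≤ X →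
    (∃ (n : ℕ) (L : Fin n → Type) (_ : ∀ i, Field (L i)) (_ : ∀ i, NumberField (L i)),
      c * X ≤ n ∧ (∀ i, finrank ℚ (L i) = 4) ∧
      (∀ i, ∀ k : IntermediateField ℚ (L i), finrank ℚ k ≠ 2) ∧
      (∀ i, |(discr (L i) : ℝ)| ≤ X) ∧ ∀ i j, Nonempty (L i ≃+* L j) → i = j) ∧
    (∃ (n : ℕ) (L : Fin n → Type) (_ : ∀ i, Field (L i)) (_ : ∀ i, NumberField (L i)),
      c * X ≤ n ∧ (∀ i, finrank ℚ (L i) = 4) ∧
      (∀ i, ∃ k : IntermediateField ℚ (L i), finrank ℚ k = 2) ∧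
      (∀ i, |(discr (L i) : ℝ)| ≤ X) ∧ ∀ i j, Nonempty (L i ≃+* L j) → i = j) ∧
    ∀ (ι : Type) (L : ι → Type) [∀ i, Field (L i)] [∀ i, NumberField (L i)],
      (∀ i, finrank ℚ (L i) = 4) → (∀ i, |(discr (L i) : ℝ)| ≤ X) →
      (∀ i j, Nonempty (L i ≃+* L j) → i = j) →
      Finite ι ∧ (Nat.card ι : ℝ) ≤ C * X := by
  obtain ⟨c₁, X₁, hc₁, h₁⟩ := primitive_lower
  obtain ⟨c₂, X₂, hc₂, h₂⟩ := quadratic_lower
  obtain ⟨C, -, hC⟩ := FA.QuarticCount.quartic_fields_count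
  refine ⟨min c₁ c₂, C, max (max X₁ X₂) 0, lt_min hc₁ hc₂, fun X hX => ?_⟩
  obtain ⟨⟨hX₁, hX₂⟩, hX0⟩ : (X₁ ≤ X ∧ X₂ ≤ X) ∧ 0 ≤ X := by
    simpa [max_le_iff, and_assoc] using hX
  refine ⟨?_, ?_, fun ι L _ _ h4 hd hne => hC X hX0 ι L h4 hd hne⟩
  · obtain ⟨n, L, i1, i2, hn, h4, hk, -, hd, hne⟩ := h₁ X hX₁
    exact ⟨n, L, i1, i2, (mul_le_mul_of_nonneg_right (min_le_left _ _) hX0).trans hn, h4, hk, hd,
      hne⟩
  · obtain ⟨n, L, i1, i2, hn, h4, hk, hd, hne⟩ := h₂ X hX₂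
    exact ⟨n, L, i1, i2, (mul_le_mul_of_nonneg_right (min_le_right _ _) hX0).trans hn, h4, hk, hd,
      hne⟩

end FA.QuarticLower
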